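import Fermat.Agent.S19.Top.Level
import Fermat.Agent.S19.A.FunFlat
import Fermat.Agent.Lib.Frobenius
import Fermat.Prelude.Def_ModularCurve_ArithmeticGalois

/-!
# S19 / T3: final assembly.

* `stmt_of_isFlatMod`   : `IsFlatMod ℓ (Pic0.torsion ℚ̄ F_p (ℓ^k))` is the literal statement S19;
* `NeatContract`        : OUTPUT of block M (concrete modular instantiation, neat level `M`, `ℓ ∤ M`);
* `TowerContract`       : OUTPUT of block LVL (the tower `F_p ⊆ F_M` for `p ∣ M`);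
* `stmt_of_contracts`   : S19 from the two contracts.
-/

set_option autoImplicit false

namespace Fermat.Agent.S19

open AlgebraicCurve ModularCurve Fermat.Agent.Lib.RR Fermat.Agent.GAL.RED

/-- The function field of `X₀(N)` over `ℚ̄`. -/
abbrev FN (N : ℕ) : Type := ↥(modularFunctionFieldBar N)

/-- The arithmetic Galois action on `F_N`. -/
noncomputable abbrev rhoN (N : ℕ) : GQ →* SemilinearAut Qb (FN N) :=
  arithmeticGalois (modularFunctionFieldFull N)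

theorem baseAut_rhoN (N : ℕ) (σ : GQ) (a : Qb) : SemilinearAut.baseAut (rhoN N σ) a = σ a := rfl

/-- The literal statement of S19. -/
def Stmt (p ℓ k : ℕ) : Prop :=
  ∃ (H : Type) (_ : CommRing H) (_ : HopfAlgebra (GaloisRep.ratLocalizedAt ℓ) H),
    Module.Finite (GaloisRep.ratLocalizedAt ℓ) H ∧ Module.Flat (GaloisRep.ratLocalizedAt ℓ) H ∧
    Coalgebra.IsCocomm (GaloisRep.ratLocalizedAt ℓ) H ∧
    ∃ e : WithConv (H →ₐ[GaloisRep.ratLocalizedAt ℓ] AlgebraicClosure ℚ) ≃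
        ↥(Submodule.torsionBy ℤ (JZero p) ((ℓ : ℤ) ^ k)),
      (∀ f g, e (f * g) = e f + e g) ∧
      ∀ (σ : AlgebraicClosure ℚ ≃ₐ[ℚ] AlgebraicClosure ℚ)
        (f g : WithConv (H →ₐ[GaloisRep.ratLocalizedAt ℓ] AlgebraicClosure ℚ)),
        (∀ h : H, g h = σ (f h)) → ((e g : JZero p)) = σ • (e f : JZero p)

theorem mem_torsion_pow_iff (p ℓ k : ℕ) (x : JZero p) :
    x ∈ Pic0.torsion Qb (FN p) (ℓ ^ k) ↔ x ∈ Submodule.torsionBy ℤ (JZero p) ((ℓ : ℤ) ^ k) := by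
  rw [Pic0.mem_torsion, Submodule.mem_torsionBy_iff]
  push_cast
  rfl

theorem stmt_of_isFlatMod (p ℓ k : ℕ)
    (h : @IsFlatMod ℓ (Pic0.torsion Qb (FN p) (ℓ ^ k)) _ (torsAction (rhoN p) (ℓ ^ k))) :
    Stmt p ℓ k := by
  obtain ⟨H, i1, i2, hfin, hflat, hco, e, hmul, heq⟩ := h
  refine ⟨H, i1, i2, hfin, hflat, hco,
    e.trans (Equiv.subtypeEquivRight (mem_torsion_pow_iff p ℓ k)), ?_, ?_⟩
  · intro f g
    apply Subtype.ext
    have := congrArg Subtype.val (hmul f g)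
    exact this
  · intro σ f g hfg
    have := congrArg Subtype.val (heq σ f g hfg)
    exact this

/-- finiteness of the torsion (S27). -/
theorem finite_torsion {F : Type} [Field F] [Algebra Qb F] [IsFF Qb F] (ℓ : ℕ) [Fact ℓ.Prime]
    (n : ℕ) : Finite (Pic0.torsion Qb F (ℓ ^ n)) := by
  have hℓ : ℓ.Prime := Fact.out
  apply Nat.finite_of_card_ne_zero
  rw [Fermat.Agent.S27.card_torsion_charZero Qb F ℓ hℓ n]
  exact pow_ne_zero _ hℓ.ne_zero

/-- CONTRACT of block M: good reduction data for the neat level `M` at a place `A` of `ℚ̄` over `ℓ ∤ M`. -/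
def NeatContract (ℓ M : ℕ) : Prop :=
  ∀ A : ValuationSubring Qb, A.LiesOverPrime ℓ →
    ∃ (_ : IsFF Qb (FN M)) (k Fb : Type) (_ : Field k) (_ : Field Fb) (_ : Algebra k Fb)
      (_ : IsFF k Fb) (_ : IsAlgClosed k) (R : RedData Qb (FN M) k Fb)
      (r : Place Qb (FN M) → Place k Fb),
      R.A = A ∧ GalRed R r (rhoN M) ∧ genusFF Qb (FN M) = genusFF k Fb

theorem isFunFlat_of_neatContract (ℓ M : ℕ) [Fact ℓ.Prime] (h : NeatContract ℓ M) (n : ℕ) :
    @IsFunFlat ℓ (Pic0.torsion Qb (FN M) (ℓ ^ n)) _ (torsAction (rhoN M) (ℓ ^ n)) := by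
  have hℓ : ℓ.Prime := Fact.out
  obtain ⟨A, hA⟩ := Fermat.Agent.Lib.Frobenius.exists_liesOverPrime Qb hℓ
  obtain ⟨i0, k, Fb, i1, i2, i3, i4, i5, R, r, hRA, hgal, hg⟩ := h A hA
  have := finite_torsion (F := FN M) ℓ n
  refine isFunFlat_torsion (rhoN M) (baseAut_rhoN M) hgal hg ℓ ?_ n
  rw [hRA]
  intro hinv
  have h1 : (ℓ : Qb) ∈ A.nonunits := hA
  rw [ValuationSubring.mem_nonunits_iff_exists_mem_maximalIdeal] at h1
  obtain ⟨hmem, hmax⟩ := h1
  apply (IsLocalRing.mem_maximalIdeal _).mp hmax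
  rw [isUnit_iff_exists_inv]
  refine ⟨⟨_, hinv⟩, Subtype.ext ?_⟩
  have h0 : (ℓ : Qb) ≠ 0 := by exact_mod_cast hℓ.ne_zero
  exact mul_inv_cancel₀ h0

/-- CONTRACT of block LVL: the tower `F_p ⊆ F_M`. -/
def TowerContract (p M : ℕ) : Prop :=
  ∃ (_ : IsFF Qb (FN p)) (_ : IsFF Qb (FN M)) (_ : Algebra (FN p) (FN M))
    (_ : IsScalarTower Qb (FN p) (FN M)) (_ : FiniteDimensional (FN p) (FN M))
    (_ : Algebra.IsSeparable (FN p) (FN M)),
    ∀ (σ : GQ) (f : FN p), rhoN M σ • algebraMap (FN p) (FN M) f = algebraMap (FN p) (FN M) (rhoN p σ • f)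

theorem stmt_of_contracts (p ℓ M : ℕ) [Fact ℓ.Prime] (hM : NeatContract ℓ M)
    (hT : TowerContract p M) (k : ℕ) : Stmt p ℓ k := by
  obtain ⟨i0, i1, i2, i3, i4, i5, hcompat⟩ := hT
  have := finite_torsion (F := FN p) ℓ k
  apply stmt_of_isFlatMod
  let _ := torsAction (rhoN p) (ℓ ^ k)
  exact IsFunFlat.isFlatMod
    (isFunFlat_torsion_of_cover (rhoN p) (rhoN M) hcompat ℓ (isFunFlat_of_neatContract ℓ M hM) k)

/-- choice of the neat level. -/
theorem exists_neat_level (p ℓ : ℕ) [NeZero p] [Fact ℓ.Prime] (hℓp : ¬ ℓ ∣ p) :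
    ∃ M : ℕ, M ≠ 0 ∧ p ∣ M ∧ ¬ ℓ ∣ M ∧ (4 ∣ M ∨ 9 ∣ M) := by
  have hℓ : ℓ.Prime := Fact.out
  have hp : p ≠ 0 := NeZero.ne p
  by_cases h2 : ℓ = 2
  · refine ⟨9 * p, by positivity, Dvd.intro_left 9 rfl, ?_, Or.inr (Dvd.intro p rfl)⟩
    intro h
    rcases (Nat.Prime.dvd_mul hℓ).mp h with h | h
    · rw [h2] at h; omega
    · exact hℓp h
  · refine ⟨4 * p, by positivity, Dvd.intro_left 4 rfl, ?_, Or.inl (Dvd.intro p rfl)⟩
    intro h
    rcases (Nat.Prime.dvd_mul hℓ).mp h with h | h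
    · have h4 : ℓ ∣ 2 ^ 2 := by simpa using h
      have := (Nat.prime_dvd_prime_iff_eq hℓ Nat.prime_two).mp (hℓ.dvd_of_dvd_pow h4)
      exact h2 this
    · exact hℓp h

end Fermat.Agent.S19
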