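import Fermat.Agent.S19.Top.Final
import Fermat.Agent.GAL.Hecke.Degree
import Fermat.Agent.GAL.Tors.Desc.IsFF

/-!
# S19 / T4: the concrete tower `F_p ⊆ F_M` for `p ∣ M` (`TowerContract`).
-/

set_option autoImplicit false

namespace Fermat.Agent.S19

open AlgebraicCurve ModularCurve Fermat.Agent.Lib.RR

theorem towerContract (p M : ℕ) [NeZero p] [NeZero M] (h : p ∣ M) : TowerContract p M := by
  obtain ⟨c, rfl⟩ := h
  have hc : NeZero c := ⟨fun h0 => NeZero.ne (p * c) (by rw [h0, mul_zero])⟩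
  let φ := heckeAlphaBar Qb p c
  let alg : Algebra (FN p) (FN (p * c)) := φ.toRingHom.toAlgebra
  have htower : IsScalarTower Qb (FN p) (FN (p * c)) :=
    IsScalarTower.of_algebraMap_eq fun a => (φ.commutes a).symm
  have hfin : FiniteDimensional (FN p) (FN (p * c)) :=
    Fermat.Agent.GAL.Hecke.finiteAlong_alpha p c
  have hchar : CharZero (FN p) := charZero_of_injective_algebraMap (algebraMap Qb (FN p)).injective
  have hsep : Algebra.IsSeparable (FN p) (FN (p * c)) :=
    Algebra.IsAlgebraic.isSeparable_of_perfectField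
  refine ⟨Fermat.Agent.GAL.Desc.isFF_FF_Kbar p, Fermat.Agent.GAL.Desc.isFF_FF_Kbar (p * c), alg,
    htower, hfin, hsep, fun σ f => ?_⟩
  apply Subtype.ext
  show ((rhoN (p * c) σ • φ f : FN (p * c)) : LaurentSeries Qb) = ((φ (rhoN p σ • f) : FN (p * c)) : LaurentSeries Qb)
  rw [coe_heckeAlphaBar, coe_arithmeticGalois_smul, coe_arithmeticGalois_smul, coe_heckeAlphaBar]

end Fermat.Agent.S19
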