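import Fermat.Agent.S19.A.Criterion
import Fermat.Agent.S19.B.Main
import Fermat.Agent.S19.ND.Main
import Fermat.Agent.S19.DIV.Export

/-!
# S19 / T1: `Pic⁰(F)[ℓ^n]` has a Hopf order of functions, for `F / ℚ̄` with good reduction data `GalRed`.

Assembly of Theorem A (`isFunFlat_of_sep`), Theorem B (`isSep_weil`), the Weil pairing (`Weil.weil`) and its
nondegeneracy (`ND.weil_separates`), with `E x y τ := weil m x (ρ τ • y)`.
-/

set_option autoImplicit false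

namespace Fermat.Agent.S19

open AlgebraicCurve Fermat.Agent.Lib.RR Fermat.Agent.GAL.RED Fermat.Agent.S19.Weil

/-- The action of `G_ℚ` on the torsion of `Pic⁰` through `ρ`. -/
@[reducible] noncomputable def torsAction {F : Type} [Field F] [Algebra Qb F]
    (ρ : GQ →* SemilinearAut Qb F) (m : ℕ) : DistribMulAction GQ (Pic0.torsion Qb F m) :=
  DistribMulAction.compHom _ ρ

theorem isFunFlat_torsion {F : Type} [Field F] [Algebra Qb F] [IsFF Qb F] {k Fb : Type*} [Field k]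
    [Field Fb] [Algebra k Fb] [IsFF k Fb] [IsAlgClosed k] {R : RedData Qb F k Fb}
    {r : Place Qb F → Place k Fb} (ρ : GQ →* SemilinearAut Qb F)
    (hρ : ∀ (σ : GQ) (a : Qb), SemilinearAut.baseAut (ρ σ) a = σ a) (h : GalRed R r ρ)
    (hg : genusFF Qb F = genusFF k Fb) (ℓ : ℕ) [Fact ℓ.Prime] (hℓ : (ℓ : Qb)⁻¹ ∉ R.A) (n : ℕ)
    [Finite (Pic0.torsion Qb F (ℓ ^ n))] :
    @IsFunFlat ℓ (Pic0.torsion Qb F (ℓ ^ n)) _ (torsAction ρ (ℓ ^ n)) := by
  let _ := torsAction ρ (ℓ ^ n)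
  have hℓp : ℓ.Prime := Fact.out
  have hsm : ∀ (σ : GQ) (x : Pic0.torsion Qb F (ℓ ^ n)), ((σ • x : Pic0.torsion Qb F (ℓ ^ n)) : Pic0 Qb F)
      = ρ σ • (x : Pic0 Qb F) := fun _ _ => rfl
  have hmem : ∀ (τ : GQ) (y : Pic0.torsion Qb F (ℓ ^ n)),
      ρ τ • (y : Pic0 Qb F) ∈ Pic0.torsion Qb F (ℓ ^ n) :=
    fun τ y => SemilinearAut.smul_mem_torsion (ρ τ) y.2
  refine isFunFlat_of_sep ℓ (Y := Pic0.torsion Qb F (ℓ ^ n)) R.A hℓ
    (fun x y τ => ((weil (ℓ ^ n) (x : Pic0 Qb F) (ρ τ • (y : Pic0 Qb F)) : Qbˣ) : Qb)) ?_ ?_ ?_ ?_ ?_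
  · intro x x' y τ
    show ((weil (ℓ ^ n) ((x : Pic0 Qb F) + (x' : Pic0 Qb F)) (ρ τ • (y : Pic0 Qb F)) : Qbˣ) : Qb) = _
    rw [weil_add_left x.2 x'.2 (hmem τ y), Units.val_mul]
  · intro x y τ
    exact Units.ne_zero _
  · intro σ x y τ
    show ((weil (ℓ ^ n) (ρ σ • (x : Pic0 Qb F)) (ρ (σ * τ) • (y : Pic0 Qb F)) : Qbˣ) : Qb) = _
    rw [map_mul, mul_smul, weil_smul]
    exact hρ σ _
  · intro x hx
    have h0 : (x : Pic0 Qb F) = ((0 : Pic0.torsion Qb F (ℓ ^ n)) : Pic0 Qb F) := by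
      refine ND.weil_separates Qb F DIV.divStatement ℓ hℓp n x.2 (0 : Pic0.torsion Qb F (ℓ ^ n)).2 ?_
      intro y hy
      have h1 := hx ⟨y, hy⟩ 1
      simp only [map_one, one_smul] at h1
      have h2 : weil (ℓ ^ n) (x : Pic0 Qb F) y = 1 := Units.ext h1
      rw [h2]
      exact (weil_zero_left _ _).symm
    exact Subtype.ext h0
  · intro x y
    obtain ⟨N, a, b, ha, hb, hu⟩ := isSep_weil h hg (pow_ne_zero n hℓp.ne_zero) x.2 y.2
    refine ⟨N, a, b, ha, fun i τ => ?_, fun τ => ?_⟩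
    · have := hb i τ
      rwa [show ((baseHom Qb F).comp ρ) τ (b i) = τ (b i) from hρ τ (b i)] at this
    · refine (hu τ).trans ?_
      refine Finset.sum_congr rfl fun i _ => ?_
      rw [show ((baseHom Qb F).comp ρ) τ (b i) = τ (b i) from hρ τ (b i)]

end Fermat.Agent.S19
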