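import Fermat.Agent.S19.Top.Abstract
import Fermat.Agent.S19.Lvl.Cover

/-!
# S19 / T2: descent of the level.

`F ⊆ F'` function fields over `ℚ̄` with compatible semilinear `G_ℚ`-actions.  If all `Pic⁰(F')[ℓ^n]` have Hopf
orders of functions, so have all `Pic⁰(F)[ℓ^n]`.  Proved (sorry-free) in `S19/Lvl/Cover.lean`:
`Pic⁰(F)[ℓ^n]` is an equivariant subquotient of `Pic⁰(F')[ℓ^{n+c}]` through `π_*`
(`[F' : F] = ℓ^c d'`, `π_* π^* = [F' : F]`, block DIV).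
-/

set_option autoImplicit false

namespace Fermat.Agent.S19

open AlgebraicCurve Fermat.Agent.Lib.RR

variable {F F' : Type} [Field F] [Field F'] [Algebra Qb F] [Algebra Qb F'] [Algebra F F']
  [IsScalarTower Qb F F'] [FiniteDimensional F F'] [Algebra.IsSeparable F F'] [IsFF Qb F]
  [IsFF Qb F']

/-- T2: descent of the level. -/
theorem isFunFlat_torsion_of_cover (ρ : GQ →* SemilinearAut Qb F) (ρ' : GQ →* SemilinearAut Qb F')
    (hcompat : ∀ (σ : GQ) (f : F), ρ' σ • algebraMap F F' f = algebraMap F F' (ρ σ • f))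
    (ℓ : ℕ) [Fact ℓ.Prime]
    (h' : ∀ n, @IsFunFlat ℓ (Pic0.torsion Qb F' (ℓ ^ n)) _ (torsAction ρ' (ℓ ^ n))) (n : ℕ) :
    @IsFunFlat ℓ (Pic0.torsion Qb F (ℓ ^ n)) _ (torsAction ρ (ℓ ^ n)) :=
  Lvl.isFunFlat_torsion_of_cover ρ ρ' hcompat ℓ h' n

end Fermat.Agent.S19
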